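import Mathlib

/-!
# S56 / EC.5, induced half of the Steinberg reduction: vocabulary

Everything here is elementary and category-free (Mathlib only).

* `Inv p G`: an integer-valued invariant of `F_p[G]`-representations (in the application the
  Euler characteristic `χ` and the archimedean term `f`); only its values on finite
  representations are ever used.
* `SubAdd χ` / `ExAdd f`: subadditivity / additivity on equivariant short exact sequences.
* `opOf τ e`: the operator on `Fin n → V` of a matrix `e` over the group algebra of `Γ`, acting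
  through a representation `τ` of `Γ` on `V`.
* `IsEPAt χ f ρ τ`: `χ = f` on every finite `G`-representation which is an equivariant retract
  of `(Fin n → V, ρ)` whose projector is `opOf τ e` for an idempotent matrix `e`.
* `funRep`: functions on a set with a group action, `(g φ)(s) = φ (g⁻¹ • s)`.
* `coind B ρ`: the functions `G ⧸ B → N` with `(g φ)(ω) = ρ g (φ (g⁻¹ • ω))`.
* `indSub ρM`, `indRep ρM`: the induced representation of a representation `ρM` of a subgroup
  `B`, realised as the functions `u : G → M` with `u (g * b) = ρM b⁻¹ (u g)`, with `G` acting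
  by left translation.
-/

namespace Fermat.Agent.S56.EC.SteinbergInd

open scoped BigOperators

/-- An invariant of `F_p[G]`-representations. -/
abbrev Inv (p : ℕ) (G : Type) [Group G] : Type 1 :=
  ∀ (V : Type) [AddCommGroup V] [Module (ZMod p) V], Representation (ZMod p) G V → ℤ

section Hyp

variable {p : ℕ} {G : Type} [Group G]

/-- `χ` is subadditive on equivariant short exact sequences of finite representations:
`0 → A → B → C → 0` gives `χ B ≤ χ A + χ C`. -/
def SubAdd (χ : Inv p G) : Prop :=
  ∀ (A B C : Type) [AddCommGroup A] [Module (ZMod p) A] [Finite A]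
    [AddCommGroup B] [Module (ZMod p) B] [Finite B]
    [AddCommGroup C] [Module (ZMod p) C] [Finite C]
    (ρA : Representation (ZMod p) G A) (ρB : Representation (ZMod p) G B)
    (ρC : Representation (ZMod p) G C) (i : A →ₗ[ZMod p] B) (q : B →ₗ[ZMod p] C),
    (∀ g a, i (ρA g a) = ρB g (i a)) → (∀ g b, q (ρB g b) = ρC g (q b)) →
    Function.Injective i → Function.Exact i q → Function.Surjective q →
    χ B ρB ≤ χ A ρA + χ C ρC

/-- `f` is additive on equivariant short exact sequences of finite representations:
`0 → A → B → C → 0` gives `f B = f A + f C`. -/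
def ExAdd (f : Inv p G) : Prop :=
  ∀ (A B C : Type) [AddCommGroup A] [Module (ZMod p) A] [Finite A]
    [AddCommGroup B] [Module (ZMod p) B] [Finite B]
    [AddCommGroup C] [Module (ZMod p) C] [Finite C]
    (ρA : Representation (ZMod p) G A) (ρB : Representation (ZMod p) G B)
    (ρC : Representation (ZMod p) G C) (i : A →ₗ[ZMod p] B) (q : B →ₗ[ZMod p] C),
    (∀ g a, i (ρA g a) = ρB g (i a)) → (∀ g b, q (ρB g b) = ρC g (q b)) →
    Function.Injective i → Function.Exact i q → Function.Surjective q →
    f B ρB = f A ρA + f C ρC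

/-- The operator on `Fin n → V` of a matrix over the group algebra of `Γ`, through `τ`:
`(opOf τ e v) i = ∑ j, τ.asAlgebraHom (e i j) (v j)`. -/
noncomputable def opOf {Γ V : Type} [Group Γ] [AddCommGroup V] [Module (ZMod p) V]
    (τ : Representation (ZMod p) Γ V) {n : ℕ}
    (e : Matrix (Fin n) (Fin n) (MonoidAlgebra (ZMod p) Γ)) :
    (Fin n → V) →ₗ[ZMod p] (Fin n → V) :=
  LinearMap.pi fun i => ∑ j, (τ.asAlgebraHom (e i j)).comp (LinearMap.proj j)

theorem opOf_apply {Γ V : Type} [Group Γ] [AddCommGroup V] [Module (ZMod p) V]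
    (τ : Representation (ZMod p) Γ V) {n : ℕ}
    (e : Matrix (Fin n) (Fin n) (MonoidAlgebra (ZMod p) Γ)) (v : Fin n → V) (i : Fin n) :
    opOf τ e v i = ∑ j, τ.asAlgebraHom (e i j) (v j) := by
  simp [opOf, LinearMap.sum_apply]

/-- `χ = f` on every finite `G`-representation `X` which is an equivariant retract
`i : X → (Fin n → V)`, `r : (Fin n → V) → X`, `r ∘ i = id`, of the diagonal representation `ρ`
on `Fin n → V`, with projector `i ∘ r = opOf τ e` for an idempotent matrix `e` over the group
algebra of `Γ` (acting on `V` through `τ`). -/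
def IsEPAt (χ f : Inv p G) {Γ V : Type} [Group Γ] [AddCommGroup V] [Module (ZMod p) V]
    (ρ : Representation (ZMod p) G V) (τ : Representation (ZMod p) Γ V) : Prop :=
  ∀ (n : ℕ) (e : Matrix (Fin n) (Fin n) (MonoidAlgebra (ZMod p) Γ)), e * e = e →
    ∀ (X : Type) [AddCommGroup X] [Module (ZMod p) X] [Finite X]
      (ρX : Representation (ZMod p) G X)
      (i : X →ₗ[ZMod p] (Fin n → V)) (r : (Fin n → V) →ₗ[ZMod p] X),
      (∀ g x k, i (ρX g x) k = ρ g (i x k)) →
      (∀ g v, r (fun k => ρ g (v k)) = ρX g (r v)) →
      (∀ x, r (i x) = x) → (∀ v, i (r v) = opOf τ e v) →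
      χ X ρX = f X ρX

end Hyp

section Reps

variable {k : Type} [CommRing k] {G : Type} [Group G]

/-- Functions on a set with a group action: `(g φ)(s) = φ (g⁻¹ • s)`. -/
def funRep (k : Type) [CommRing k] (H S : Type) [Group H] [MulAction H S] :
    Representation k H (S → k) where
  toFun g :=
    { toFun := fun φ s => φ (g⁻¹ • s)
      map_add' := fun _ _ => rfl
      map_smul' := fun _ _ => rfl }
  map_one' := by
    refine LinearMap.ext fun φ => funext fun s => ?_
    show φ ((1 : H)⁻¹ • s) = φ s
    rw [inv_one, one_smul]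
  map_mul' g h := by
    refine LinearMap.ext fun φ => funext fun s => ?_
    show φ ((g * h)⁻¹ • s) = φ (h⁻¹ • g⁻¹ • s)
    rw [mul_inv_rev, mul_smul]

@[simp] theorem funRep_apply (k : Type) [CommRing k] (H S : Type) [Group H] [MulAction H S]
    (g : H) (φ : S → k) (s : S) : funRep k H S g φ s = φ (g⁻¹ • s) := rfl

/-- The functions `G ⧸ B → N` with `(g φ)(ω) = ρ g (φ (g⁻¹ • ω))`
(a model of `Ind_B^G Res_B N ≅ N ⊗ k[G/B]`). -/
def coind (B : Subgroup G) {N : Type} [AddCommGroup N] [Module k N]
    (ρ : Representation k G N) : Representation k G (G ⧸ B → N) where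
  toFun g :=
    { toFun := fun φ ω => ρ g (φ (g⁻¹ • ω))
      map_add' := fun φ ψ => by funext ω; simp
      map_smul' := fun c φ => by funext ω; simp }
  map_one' := by
    refine LinearMap.ext fun φ => funext fun ω => ?_
    show ρ 1 (φ ((1 : G)⁻¹ • ω)) = φ ω
    simp
  map_mul' g h := by
    refine LinearMap.ext fun φ => funext fun ω => ?_
    show ρ (g * h) (φ ((g * h)⁻¹ • ω)) = ρ g (ρ h (φ (h⁻¹ • g⁻¹ • ω)))
    simp [mul_smul]

@[simp] theorem coind_apply (B : Subgroup G) {N : Type} [AddCommGroup N] [Module k N]
    (ρ : Representation k G N) (g : G) (φ : G ⧸ B → N) (ω : G ⧸ B) :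
    coind B ρ g φ ω = ρ g (φ (g⁻¹ • ω)) := rfl

/-- Left translation on all functions `G → M`: `(h u)(g) = u (h⁻¹ * g)`. -/
def ltrans (k : Type) [CommRing k] (G M : Type) [Group G] [AddCommGroup M] [Module k M] :
    Representation k G (G → M) where
  toFun h :=
    { toFun := fun u g => u (h⁻¹ * g)
      map_add' := fun _ _ => rfl
      map_smul' := fun _ _ => rfl }
  map_one' := by
    refine LinearMap.ext fun u => funext fun g => ?_
    show u ((1 : G)⁻¹ * g) = u g
    rw [inv_one, one_mul]
  map_mul' h h' := by
    refine LinearMap.ext fun u => funext fun g => ?_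
    show u ((h * h')⁻¹ * g) = u (h'⁻¹ * (h⁻¹ * g))
    rw [mul_inv_rev, mul_assoc]

@[simp] theorem ltrans_apply (k : Type) [CommRing k] (G M : Type) [Group G] [AddCommGroup M]
    [Module k M] (h : G) (u : G → M) (g : G) : ltrans k G M h u g = u (h⁻¹ * g) := rfl

variable {B : Subgroup G} {M : Type} [AddCommGroup M] [Module k M]

/-- The induced module of a representation `ρM` of the subgroup `B`, as functions on `G`:
`u (g * b) = ρM b⁻¹ (u g)`. -/
def indSub (ρM : Representation k ↥B M) : Submodule k (G → M) where
  carrier := {u | ∀ (g : G) (b : ↥B), u (g * (b : G)) = ρM b⁻¹ (u g)}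
  add_mem' := by
    intro u v hu hv g b
    simp only [Pi.add_apply, map_add, hu g b, hv g b]
  zero_mem' := by
    intro g b
    simp
  smul_mem' := by
    intro c u hu g b
    simp only [Pi.smul_apply, map_smul, hu g b]

theorem mem_indSub (ρM : Representation k ↥B M) (u : G → M) :
    u ∈ indSub ρM ↔ ∀ (g : G) (b : ↥B), u (g * (b : G)) = ρM b⁻¹ (u g) := Iff.rfl

theorem indSub_le_comap (ρM : Representation k ↥B M) (h : G) :
    indSub ρM ≤ (indSub ρM).comap (ltrans k G M h) := by
  intro u hu g b
  show u (h⁻¹ * (g * (b : G))) = ρM b⁻¹ (u (h⁻¹ * g))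
  rw [← mul_assoc]
  exact hu _ b

/-- The induced representation `Ind_B^G M` (left translation on `indSub ρM`). -/
def indRep (ρM : Representation k ↥B M) : Representation k G ↥(indSub ρM) :=
  (ltrans k G M).subrepresentation (indSub ρM) (indSub_le_comap ρM)

@[simp] theorem indRep_apply (ρM : Representation k ↥B M) (h : G) (u : ↥(indSub ρM)) (g : G) :
    (indRep ρM h u : G → M) g = (u : G → M) (h⁻¹ * g) := rfl

end Reps

end Fermat.Agent.S56.EC.SteinbergInd
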