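import Fermat.Agent.S56.EC.SteinbergInd.Defs

/-!
# S56 / EC.5, induced half: induction from a subgroup is exact

For representations of a subgroup `B ≤ G` and a `B`-equivariant linear map `α : M → M'`,
`indMap α : Ind M → Ind M'` is post-composition.  It is `G`-equivariant, injective if `α` is,
exact in the middle if `α` is injective and `(α, β)` is exact, and surjective if `β` is
(coset representatives).  Also: `(G ⧸ B → N, coind B ρ)` is `G`-isomorphic to
`Ind_B^G Res_B N` by `φ ↦ (g ↦ ρ g⁻¹ (φ ↑g))`.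
-/

namespace Fermat.Agent.S56.EC.SteinbergInd

open scoped BigOperators

section Exact

variable {k : Type} [CommRing k] {G : Type} [Group G] {B : Subgroup G}
  {M M' M'' : Type} [AddCommGroup M] [Module k M] [AddCommGroup M'] [Module k M']
  [AddCommGroup M''] [Module k M'']
  {ρM : Representation k ↥B M} {ρM' : Representation k ↥B M'}
  {ρM'' : Representation k ↥B M''}

/-- Post-composition with a `B`-equivariant map, `Ind M → Ind M'`. -/
def indMap (α : M →ₗ[k] M') (hα : ∀ b m, α (ρM b m) = ρM' b (α m)) :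
    ↥(indSub ρM) →ₗ[k] ↥(indSub ρM') :=
  LinearMap.codRestrict (indSub ρM') ((LinearMap.compLeft α G).comp (indSub ρM).subtype)
    (fun u => by
      intro g b
      show α ((u : G → M) (g * (b : G))) = ρM' b⁻¹ (α ((u : G → M) g))
      rw [u.2 g b, hα])

@[simp] theorem indMap_apply (α : M →ₗ[k] M') (hα : ∀ b m, α (ρM b m) = ρM' b (α m))
    (u : ↥(indSub ρM)) (g : G) :
    (indMap α hα u : G → M') g = α ((u : G → M) g) := rfl

theorem indMap_equiv (α : M →ₗ[k] M') (hα : ∀ b m, α (ρM b m) = ρM' b (α m))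
    (h : G) (u : ↥(indSub ρM)) :
    indMap α hα (indRep ρM h u) = indRep ρM' h (indMap α hα u) := rfl

theorem indMap_injective (α : M →ₗ[k] M') (hα : ∀ b m, α (ρM b m) = ρM' b (α m))
    (hinj : Function.Injective α) : Function.Injective (indMap (ρM := ρM) (ρM' := ρM') α hα) := by
  intro u v huv
  apply Subtype.ext
  funext g
  apply hinj
  have := congrArg (fun w : ↥(indSub ρM') => (w : G → M') g) huv
  simpa using this

theorem indMap_exact (α : M' →ₗ[k] M) (hα : ∀ b m, α (ρM' b m) = ρM b (α m))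
    (β : M →ₗ[k] M'') (hβ : ∀ b m, β (ρM b m) = ρM'' b (β m))
    (hinj : Function.Injective α) (hex : Function.Exact α β) :
    Function.Exact (indMap (ρM := ρM') (ρM' := ρM) α hα)
      (indMap (ρM := ρM) (ρM' := ρM'') β hβ) := by
  intro u
  constructor
  · intro hu
    have h0 : ∀ g, β ((u : G → M) g) = 0 := fun g => by
      have := congrArg (fun w : ↥(indSub ρM'') => (w : G → M'') g) hu
      simpa using this
    have h1 : ∀ g, ∃ m' : M', α m' = (u : G → M) g := fun g => (hex _).mp (h0 g)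
    choose w hw using h1
    have hwm : w ∈ indSub ρM' := by
      intro g b
      apply hinj
      rw [hw, hα, hw]
      exact u.2 g b
    refine ⟨⟨w, hwm⟩, ?_⟩
    apply Subtype.ext
    funext g
    exact hw g
  · rintro ⟨w, rfl⟩
    apply Subtype.ext
    funext g
    show β (α ((w : G → M') g)) = 0
    exact (hex _).mpr ⟨_, rfl⟩

/-- The `B`-component of `g` relative to the chosen coset representative. -/
noncomputable def tB (B : Subgroup G) (g : G) : ↥B :=
  ⟨(Quotient.out (g : G ⧸ B))⁻¹ * g, by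
    rw [← QuotientGroup.eq, QuotientGroup.out_eq']⟩

theorem out_mul_tB (B : Subgroup G) (g : G) :
    Quotient.out (g : G ⧸ B) * (tB B g : G) = g := by
  simp [tB]

theorem tB_mul (B : Subgroup G) (g : G) (b : ↥B) : tB B (g * (b : G)) = tB B g * b := by
  apply Subtype.ext
  show (Quotient.out ((g * (b : G) : G) : G ⧸ B))⁻¹ * (g * (b : G))
    = (Quotient.out (g : G ⧸ B))⁻¹ * g * (b : G)
  rw [QuotientGroup.mk_mul_of_mem g b.2, mul_assoc]

theorem indMap_surjective (β : M →ₗ[k] M'') (hβ : ∀ b m, β (ρM b m) = ρM'' b (β m))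
    (hsurj : Function.Surjective β) :
    Function.Surjective (indMap (ρM := ρM) (ρM' := ρM'') β hβ) := by
  intro w
  choose lift hlift using hsurj
  let m : G ⧸ B → M := fun ω => lift ((w : G → M'') (Quotient.out ω))
  have hu : (fun g : G => ρM (tB B g)⁻¹ (m (g : G ⧸ B))) ∈ indSub ρM := by
    intro g b
    show ρM (tB B (g * (b : G)))⁻¹ (m ((g * (b : G) : G) : G ⧸ B))
      = ρM b⁻¹ (ρM (tB B g)⁻¹ (m (g : G ⧸ B)))
    rw [tB_mul, QuotientGroup.mk_mul_of_mem g b.2, mul_inv_rev, map_mul]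
    rfl
  refine ⟨⟨_, hu⟩, ?_⟩
  apply Subtype.ext
  funext g
  show β (ρM (tB B g)⁻¹ (m (g : G ⧸ B))) = (w : G → M'') g
  rw [hβ]
  show ρM'' (tB B g)⁻¹ (β (lift ((w : G → M'') (Quotient.out (g : G ⧸ B))))) = _
  rw [hlift, ← w.2 (Quotient.out (g : G ⧸ B)) (tB B g), out_mul_tB]

end Exact

section Coind

variable {k : Type} [CommRing k] {G : Type} [Group G] (B : Subgroup G)
  {N : Type} [AddCommGroup N] [Module k N] (ρ : Representation k G N)

/-- The restriction of a representation of `G` to the subgroup `B`. -/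
def resB : Representation k ↥B N := ρ.comp B.subtype

@[simp] theorem resB_apply (b : ↥B) (x : N) : resB B ρ b x = ρ (b : G) x := rfl

/-- `(G ⧸ B → N) → Ind_B^G Res_B N`, `φ ↦ (g ↦ ρ g⁻¹ (φ ↑g))`. -/
def coindToInd : (G ⧸ B → N) →ₗ[k] ↥(indSub (resB B ρ)) where
  toFun φ := ⟨fun g => ρ g⁻¹ (φ (g : G ⧸ B)), by
    intro g b
    show ρ (g * (b : G))⁻¹ (φ ((g * (b : G) : G) : G ⧸ B))
      = ρ ((b⁻¹ : ↥B) : G) (ρ g⁻¹ (φ (g : G ⧸ B)))
    rw [QuotientGroup.mk_mul_of_mem g b.2, mul_inv_rev, map_mul]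
    rfl⟩
  map_add' φ ψ := by
    apply Subtype.ext
    funext g
    simp
  map_smul' c φ := by
    apply Subtype.ext
    funext g
    simp

@[simp] theorem coindToInd_apply (φ : G ⧸ B → N) (g : G) :
    (coindToInd B ρ φ : G → N) g = ρ g⁻¹ (φ (g : G ⧸ B)) := rfl

theorem coindToInd_equiv (h : G) (φ : G ⧸ B → N) :
    coindToInd B ρ (coind B ρ h φ) = indRep (resB B ρ) h (coindToInd B ρ φ) := by
  apply Subtype.ext
  funext g
  show ρ g⁻¹ (ρ h (φ (h⁻¹ • (g : G ⧸ B)))) = ρ (h⁻¹ * g)⁻¹ (φ ((h⁻¹ * g : G) : G ⧸ B))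
  rw [mul_inv_rev, inv_inv, map_mul]
  rfl

theorem coindToInd_injective : Function.Injective (coindToInd B ρ) := by
  intro φ ψ h
  funext ω
  induction ω using QuotientGroup.induction_on with
  | H g =>
    have h1 := congrArg (fun w : ↥(indSub (resB B ρ)) => ρ g ((w : G → N) g)) h
    simp only [coindToInd_apply] at h1
    rw [← Module.End.mul_apply, ← Module.End.mul_apply, ← map_mul, mul_inv_cancel, map_one] at h1
    exact h1

theorem coindToInd_surjective : Function.Surjective (coindToInd B ρ) := by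
  intro u
  refine ⟨fun ω => ρ (Quotient.out ω) ((u : G → N) (Quotient.out ω)), ?_⟩
  apply Subtype.ext
  funext g
  show ρ g⁻¹ (ρ (Quotient.out (g : G ⧸ B)) ((u : G → N) (Quotient.out (g : G ⧸ B))))
    = (u : G → N) g
  have h1 := u.2 (Quotient.out (g : G ⧸ B)) (tB B g)
  rw [out_mul_tB] at h1
  rw [h1, resB_apply, ← Module.End.mul_apply, ← map_mul]
  congr 2
  simp [tB]

end Coind

end Fermat.Agent.S56.EC.SteinbergInd
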