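import Fermat.Agent.S56.EC.SteinbergInd.Defs

/-!
# S56 / EC.5, induced half: `Ind_B^G Y` for a `P`-trivial `Y` is an (EP) module

Model: a set `S` with commuting actions of `G` and `Γ`, a base point `s₀` with `G`-stabiliser
`P` and `G` transitive on `S`, a surjection `π : B → Γ` with `b • s₀ = (π b)⁻¹ • s₀`, and
`p ∤ |Γ|`.  For a representation `ρY` of `B` on which `P` acts trivially, `ρY` descends to a
representation `σ` of `Γ`, and `Ind_B^G Y = indSub ρY` is the equivariant retract of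
`Fin n → (S → F_p)` (`n = dim Y`) cut out by the idempotent matrix
`e = |Γ|⁻¹ ∑ γ, [σ γ] ⊗ γ` over `F_p[Γ]`.  Hence `IsEPAt χ f (funRep G S) (funRep Γ S)` gives
`χ (Ind Y) = f (Ind Y)`.
-/

namespace Fermat.Agent.S56.EC.SteinbergInd

open scoped BigOperators

section Descent

variable {k : Type} [CommRing k] {H Γ Y : Type} [Group H] [Group Γ] [AddCommGroup Y]
  [Module k Y]

/-- A representation which is constant on the fibres of a surjective homomorphism descends. -/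
theorem exists_descent (π : H →* Γ) (hπ : Function.Surjective π) (ρY : Representation k H Y)
    (hker : ∀ b b' : H, π b = π b' → ρY b = ρY b') :
    ∃ σ : Representation k Γ Y, ∀ b, σ (π b) = ρY b := by
  have hs : ∀ b, ρY (Function.surjInv hπ (π b)) = ρY b := fun b =>
    hker _ _ (Function.surjInv_eq hπ (π b))
  refine ⟨{ toFun := fun γ => ρY (Function.surjInv hπ γ), map_one' := ?_, map_mul' := ?_ }, hs⟩
  · have h1 := hs 1
    rw [map_one π, map_one ρY] at h1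
    exact h1
  · intro γ δ
    obtain ⟨b, rfl⟩ := hπ γ
    obtain ⟨b', rfl⟩ := hπ δ
    show ρY (Function.surjInv hπ (π b * π b')) =
      ρY (Function.surjInv hπ (π b)) * ρY (Function.surjInv hπ (π b'))
    rw [← map_mul π b b', hs, hs, hs, map_mul]

end Descent

section EP

variable {p : ℕ} {G : Type} [Group G] {B : Subgroup G}
  {S Γ : Type} [MulAction G S] [Group Γ] [MulAction Γ S]
  {Y : Type} [AddCommGroup Y] [Module (ZMod p) Y] {n : ℕ}

/-- The monomial matrices `A γ = [σ γ] ⊗ γ` over the group algebra. -/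
noncomputable def aMat (c : Module.Basis (Fin n) (ZMod p) Y) (σ : Representation (ZMod p) Γ Y)
    (γ : Γ) : Matrix (Fin n) (Fin n) (MonoidAlgebra (ZMod p) Γ) :=
  fun i k => MonoidAlgebra.single γ (c.repr (σ γ (c k)) i)

theorem aMat_mul (c : Module.Basis (Fin n) (ZMod p) Y) (σ : Representation (ZMod p) Γ Y)
    (γ δ : Γ) : aMat c σ γ * aMat c σ δ = aMat c σ (γ * δ) := by
  funext i k
  have hM : ∑ j, c.repr (σ γ (c j)) i * c.repr (σ δ (c k)) j = c.repr (σ (γ * δ) (c k)) i := by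
    have h : σ (γ * δ) (c k) = ∑ j, c.repr (σ δ (c k)) j • σ γ (c j) := by
      rw [map_mul, Module.End.mul_apply]
      conv_lhs => rw [← c.sum_repr (σ δ (c k))]
      rw [map_sum]
      simp only [map_smul]
    rw [h, map_sum]
    simp only [map_smul, Finsupp.coe_finsetSum, Finset.sum_apply, Finsupp.smul_apply,
      smul_eq_mul]
    exact Finset.sum_congr rfl fun j _ => mul_comm _ _
  rw [Matrix.mul_apply]
  simp only [aMat, MonoidAlgebra.single_mul_single]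
  rw [← hM]
  exact (map_sum (MonoidAlgebra.singleAddHom (γ * δ)) _ _).symm

variable [Fintype Γ]

/-- The idempotent `e = |Γ|⁻¹ ∑ γ, [σ γ] ⊗ γ`. -/
noncomputable def eMat (c : Module.Basis (Fin n) (ZMod p) Y) (σ : Representation (ZMod p) Γ Y) :
    Matrix (Fin n) (Fin n) (MonoidAlgebra (ZMod p) Γ) :=
  ((Fintype.card Γ : ZMod p)⁻¹) • ∑ γ, aMat c σ γ

theorem eMat_mul_self [Fact p.Prime] (hΓ : (Fintype.card Γ : ZMod p) ≠ 0)
    (c : Module.Basis (Fin n) (ZMod p) Y) (σ : Representation (ZMod p) Γ Y) :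
    eMat c σ * eMat c σ = eMat c σ := by
  unfold eMat
  rw [Matrix.smul_mul, Matrix.mul_smul, Finset.sum_mul]
  simp_rw [Finset.mul_sum, aMat_mul]
  have h : ∀ γ : Γ, ∑ δ, aMat c σ (γ * δ) = ∑ ε, aMat c σ ε := fun γ =>
    Fintype.sum_equiv (Equiv.mulLeft γ) _ _ (fun _ => rfl)
  simp_rw [h]
  rw [Finset.sum_const, Finset.card_univ, ← Nat.cast_smul_eq_nsmul (ZMod p), smul_smul,
    smul_smul, mul_assoc, inv_mul_cancel₀ hΓ, mul_one]

variable {P : Subgroup G} {s₀ : S} {π : ↥B →* Γ} {ρY : Representation (ZMod p) ↥B Y}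
  {σ : Representation (ZMod p) Γ Y}

omit [Group Γ] [MulAction Γ S] [Fintype Γ] in
/-- For a `P`-trivial `Y`, the elements of `Ind Y` are functions of `g • s₀`. -/
theorem ind_apply_eq_of_smul_eq (hPB : P ≤ B) (hstab : ∀ g : G, g • s₀ = s₀ ↔ g ∈ P)
    (htriv : ∀ b : ↥B, (b : G) ∈ P → ρY b = 1)
    {u : G → Y} (hu : u ∈ indSub ρY) {g g' : G} (h : g • s₀ = g' • s₀) : u g = u g' := by
  have hx : g⁻¹ * g' ∈ P := by
    rw [← hstab, mul_smul, ← h, inv_smul_smul]
  have h1 := hu g ⟨g⁻¹ * g', hPB hx⟩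
  rw [htriv (⟨g⁻¹ * g', hPB hx⟩ : ↥B)⁻¹ (P.inv_mem hx)] at h1
  simpa using h1.symm

/-- The inclusion `Ind Y → Fin n → (S → F_p)`: coordinates of `u (sec s)`. -/
noncomputable def iMap (c : Module.Basis (Fin n) (ZMod p) Y) (ρY : Representation (ZMod p) ↥B Y)
    (sec : S → G) : ↥(indSub ρY) →ₗ[ZMod p] (Fin n → S → ZMod p) where
  toFun u := fun j s => c.repr ((u : G → Y) (sec s)) j
  map_add' u v := by funext j s; simp
  map_smul' a u := by funext j s; simp

omit [MulAction G S] [Group Γ] [MulAction Γ S] [Fintype Γ] in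
theorem iMap_apply (c : Module.Basis (Fin n) (ZMod p) Y) (ρY : Representation (ZMod p) ↥B Y)
    (sec : S → G) (u : ↥(indSub ρY)) (j : Fin n) (s : S) :
    iMap c ρY sec u j s = c.repr ((u : G → Y) (sec s)) j := rfl

/-- The averaged retraction, as a function of `g`. -/
noncomputable def rFun (c : Module.Basis (Fin n) (ZMod p) Y) (σ : Representation (ZMod p) Γ Y)
    (s₀ : S) (v : Fin n → S → ZMod p) (g : G) : Y :=
  (Fintype.card Γ : ZMod p)⁻¹ • ∑ γ : Γ, σ γ⁻¹ (∑ j, v j (γ • g • s₀) • c j)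

theorem rFun_mem [SMulCommClass G Γ S] (c : Module.Basis (Fin n) (ZMod p) Y)
    (hπs : ∀ b : ↥B, (b : G) • s₀ = (π b)⁻¹ • s₀) (hσ : ∀ b, σ (π b) = ρY b)
    (v : Fin n → S → ZMod p) : rFun c σ s₀ v ∈ indSub ρY := by
  intro g b
  unfold rFun
  rw [map_smul, map_sum]
  congr 1
  refine Fintype.sum_equiv (Equiv.mulRight (π b)⁻¹) _ _ (fun γ => ?_)
  have h1 : γ • (g * (b : G)) • s₀ = (γ * (π b)⁻¹) • g • s₀ := by
    rw [mul_smul g, hπs b, smul_comm g, mul_smul]
  have h2 : σ γ⁻¹ = ρY b⁻¹ * σ (γ * (π b)⁻¹)⁻¹ := by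
    rw [← hσ b⁻¹, map_inv π b, ← map_mul σ]
    congr 1
    group
  simp only [Equiv.coe_mulRight]
  rw [h1, h2]
  rfl

/-- Evaluation of a coordinate at a point, as a linear map. -/
def evL (p : ℕ) (n : ℕ) (S : Type) (j : Fin n) (s : S) :
    (Fin n → S → ZMod p) →ₗ[ZMod p] ZMod p where
  toFun v := v j s
  map_add' _ _ := rfl
  map_smul' _ _ := rfl

/-- The averaged retraction `Fin n → (S → F_p) → Ind Y`. -/
noncomputable def rMap [SMulCommClass G Γ S] (c : Module.Basis (Fin n) (ZMod p) Y)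
    (hπs : ∀ b : ↥B, (b : G) • s₀ = (π b)⁻¹ • s₀) (hσ : ∀ b, σ (π b) = ρY b) :
    (Fin n → S → ZMod p) →ₗ[ZMod p] ↥(indSub ρY) :=
  LinearMap.codRestrict (indSub ρY)
    (LinearMap.pi fun g : G =>
      (Fintype.card Γ : ZMod p)⁻¹ • ∑ γ : Γ, (σ γ⁻¹).comp
        (∑ j : Fin n, (LinearMap.toSpanSingleton (ZMod p) Y (c j)).comp
          (evL p n S j (γ • g • s₀))))
    (fun v => by
      have h : (LinearMap.pi fun g : G =>
          (Fintype.card Γ : ZMod p)⁻¹ • ∑ γ : Γ, (σ γ⁻¹).comp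
            (∑ j : Fin n, (LinearMap.toSpanSingleton (ZMod p) Y (c j)).comp
              (evL p n S j (γ • g • s₀)))) v = rFun c σ s₀ v := by
        funext g
        simp [rFun, evL, LinearMap.sum_apply]
      rw [h]
      exact rFun_mem c hπs hσ v)

theorem rMap_apply [SMulCommClass G Γ S] (c : Module.Basis (Fin n) (ZMod p) Y)
    (hπs : ∀ b : ↥B, (b : G) • s₀ = (π b)⁻¹ • s₀) (hσ : ∀ b, σ (π b) = ρY b)
    (v : Fin n → S → ZMod p) (g : G) :
    ((rMap c hπs hσ v : ↥(indSub ρY)) : G → Y) g = rFun c σ s₀ v g := by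
  simp [rMap, rFun, evL, LinearMap.sum_apply]

omit [Group Γ] [MulAction Γ S] [Fintype Γ] in
theorem iMap_equiv (c : Module.Basis (Fin n) (ZMod p) Y) (hPB : P ≤ B)
    (hstab : ∀ g : G, g • s₀ = s₀ ↔ g ∈ P) (htriv : ∀ b : ↥B, (b : G) ∈ P → ρY b = 1)
    {sec : S → G} (hsec : ∀ s, sec s • s₀ = s) (h : G) (u : ↥(indSub ρY)) (j : Fin n) :
    iMap c ρY sec (indRep ρY h u) j = funRep (ZMod p) G S h (iMap c ρY sec u j) := by
  funext s
  show c.repr ((u : G → Y) (h⁻¹ * sec s)) j = c.repr ((u : G → Y) (sec (h⁻¹ • s))) j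
  rw [ind_apply_eq_of_smul_eq hPB hstab htriv u.2 (g := h⁻¹ * sec s) (g' := sec (h⁻¹ • s))
    (by rw [mul_smul, hsec, hsec])]

theorem rMap_equiv [SMulCommClass G Γ S] (c : Module.Basis (Fin n) (ZMod p) Y)
    (hπs : ∀ b : ↥B, (b : G) • s₀ = (π b)⁻¹ • s₀) (hσ : ∀ b, σ (π b) = ρY b)
    (h : G) (v : Fin n → S → ZMod p) :
    rMap c hπs hσ (fun k => funRep (ZMod p) G S h (v k)) = indRep ρY h (rMap c hπs hσ v) := by
  apply Subtype.ext
  funext g
  rw [rMap_apply, indRep_apply, rMap_apply]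
  unfold rFun
  simp only [funRep_apply]
  congr 1
  refine Finset.sum_congr rfl fun γ _ => ?_
  congr 1
  refine Finset.sum_congr rfl fun j _ => ?_
  rw [mul_smul, smul_comm h⁻¹ γ]

theorem rMap_iMap [Fact p.Prime] [SMulCommClass G Γ S] (hΓ : (Fintype.card Γ : ZMod p) ≠ 0)
    (c : Module.Basis (Fin n) (ZMod p) Y) (hπ : Function.Surjective π)
    (hPB : P ≤ B) (hstab : ∀ g : G, g • s₀ = s₀ ↔ g ∈ P)
    (htriv : ∀ b : ↥B, (b : G) ∈ P → ρY b = 1)
    (hπs : ∀ b : ↥B, (b : G) • s₀ = (π b)⁻¹ • s₀) (hσ : ∀ b, σ (π b) = ρY b)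
    {sec : S → G} (hsec : ∀ s, sec s • s₀ = s) (u : ↥(indSub ρY)) :
    rMap c hπs hσ (iMap c ρY sec u) = u := by
  apply Subtype.ext
  funext g
  rw [rMap_apply]
  unfold rFun
  have key : ∀ γ : Γ, σ γ⁻¹ (∑ j, iMap c ρY sec u j (γ • g • s₀) • c j) = (u : G → Y) g := by
    intro γ
    obtain ⟨b, rfl⟩ := hπ γ
    have h1 : (∑ j, iMap c ρY sec u j (π b • g • s₀) • c j)
        = (u : G → Y) (sec (π b • g • s₀)) := c.sum_repr _
    have h2 : sec (π b • g • s₀) • s₀ = (g * ((b⁻¹ : ↥B) : G)) • s₀ := by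
      rw [hsec, mul_smul, hπs b⁻¹, map_inv, inv_inv, smul_comm g (π b)]
    rw [h1, ind_apply_eq_of_smul_eq hPB hstab htriv u.2 h2, u.2 g b⁻¹, inv_inv, ← map_inv, hσ,
      ← Module.End.mul_apply, ← map_mul, inv_mul_cancel, map_one]
    rfl
  simp only [key, Finset.sum_const, Finset.card_univ]
  rw [← Nat.cast_smul_eq_nsmul (ZMod p), smul_smul, inv_mul_cancel₀ hΓ, one_smul]

theorem iMap_rMap [SMulCommClass G Γ S] (c : Module.Basis (Fin n) (ZMod p) Y)
    (hπs : ∀ b : ↥B, (b : G) • s₀ = (π b)⁻¹ • s₀) (hσ : ∀ b, σ (π b) = ρY b)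
    {sec : S → G} (hsec : ∀ s, sec s • s₀ = s) (v : Fin n → S → ZMod p) :
    iMap c ρY sec (rMap c hπs hσ v) = opOf (funRep (ZMod p) Γ S) (eMat c σ) v := by
  funext j s
  rw [opOf_apply, iMap_apply, rMap_apply]
  have hL : c.repr (rFun c σ s₀ v (sec s)) j
      = (Fintype.card Γ : ZMod p)⁻¹ * ∑ γ : Γ, ∑ k, v k (γ • s) * c.repr (σ γ⁻¹ (c k)) j := by
    unfold rFun
    simp only [hsec, map_smul, map_sum, Finsupp.smul_apply, Finsupp.coe_finsetSum,
      Finset.sum_apply, smul_eq_mul]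
  have hR : ∀ k, ((funRep (ZMod p) Γ S).asAlgebraHom (eMat c σ j k) (v k)) s
      = (Fintype.card Γ : ZMod p)⁻¹ * ∑ γ : Γ, c.repr (σ γ (c k)) j * v k (γ⁻¹ • s) := by
    intro k
    have he : eMat c σ j k = (Fintype.card Γ : ZMod p)⁻¹ •
        ∑ γ : Γ, MonoidAlgebra.single γ (c.repr (σ γ (c k)) j) := by
      simp [eMat, aMat, Matrix.sum_apply]
    rw [he, map_smul, map_sum]
    simp only [Representation.asAlgebraHom_single, LinearMap.smul_apply, LinearMap.sum_apply,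
      Pi.smul_apply, Finset.sum_apply, funRep_apply, smul_eq_mul]
  rw [hL]
  simp only [Finset.sum_apply, hR]
  rw [← Finset.mul_sum Finset.univ _ ((Fintype.card Γ : ZMod p)⁻¹), Finset.sum_comm]
  congr 1
  refine Finset.sum_congr rfl fun k _ => ?_
  refine Fintype.sum_equiv (Equiv.inv Γ) _ _ fun γ => ?_
  simp [mul_comm]

end EP

/-- **(EP) for induced modules with trivial `P`-action.**  In a model `(S, Γ, s₀, π)` with
`p ∤ |Γ|`, if `χ = f` on the retracts of `Fin n → (S → F_p)` cut out by idempotent matrices over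
`F_p[Γ]`, then `χ (Ind_B^G Y) = f (Ind_B^G Y)` for every finite representation `Y` of `B` on
which `P` acts trivially. -/
theorem chi_eq_f_ind_of_trivial
    {p : ℕ} [Fact p.Prime] {G : Type} [Group G] [Finite G] (P B : Subgroup G) (hPB : P ≤ B)
    {S Γ : Type} [MulAction G S] [Group Γ] [Finite Γ] [MulAction Γ S] [SMulCommClass G Γ S]
    (hΓ : ¬ p ∣ Nat.card Γ) (s₀ : S) (π : ↥B →* Γ) (hπ : Function.Surjective π)
    (htrans : ∀ s : S, ∃ g : G, g • s₀ = s) (hstab : ∀ g : G, g • s₀ = s₀ ↔ g ∈ P)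
    (hπs : ∀ b : ↥B, (b : G) • s₀ = (π b)⁻¹ • s₀)
    (χ f : Inv p G) (hEP : IsEPAt χ f (funRep (ZMod p) G S) (funRep (ZMod p) Γ S))
    (Y : Type) [AddCommGroup Y] [Module (ZMod p) Y] [Finite Y]
    (ρY : Representation (ZMod p) ↥B Y) (htriv : ∀ b : ↥B, (b : G) ∈ P → ρY b = 1) :
    χ ↥(indSub ρY) (indRep ρY) = f ↥(indSub ρY) (indRep ρY) := by
  classical
  have := Fintype.ofFinite Γ
  have hΓ' : (Fintype.card Γ : ZMod p) ≠ 0 := by
    rw [Ne, ZMod.natCast_eq_zero_iff, ← Nat.card_eq_fintype_card]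
    exact hΓ
  have hker : ∀ b b' : ↥B, π b = π b' → ρY b = ρY b' := by
    intro b b' h
    have hx : ((b⁻¹ * b' : ↥B) : G) ∈ P := by
      rw [← hstab]
      have h1 := hπs (b⁻¹ * b')
      rw [map_mul, map_inv, h, inv_mul_cancel, inv_one, one_smul] at h1
      exact h1
    have h2 : ρY b' = ρY b * ρY (b⁻¹ * b') := by
      rw [← map_mul, mul_inv_cancel_left]
    rw [h2, htriv _ hx, mul_one]
  obtain ⟨σ, hσ⟩ := exists_descent π hπ ρY hker
  choose sec hsec using htrans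
  exact hEP _ (eMat (Module.finBasis (ZMod p) Y) σ) (eMat_mul_self hΓ' _ σ) ↥(indSub ρY)
    (indRep ρY) (iMap (Module.finBasis (ZMod p) Y) ρY sec)
    (rMap (Module.finBasis (ZMod p) Y) hπs hσ)
    (fun g x k => iMap_equiv _ hPB hstab htriv hsec g x k)
    (fun g v => rMap_equiv _ hπs hσ g v)
    (fun x => rMap_iMap hΓ' _ hπ hPB hstab htriv hπs hσ hsec x)
    (fun v => iMap_rMap _ hπs hσ hsec v)

end Fermat.Agent.S56.EC.SteinbergInd
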