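import Fermat.Agent.S56.EC.SteinbergInd.EP

/-!
# S56 / EC.5: Higman's criterion gives an (EP) module (free model)

A *free model* is a set `S₁` with commuting actions of `G` and `Γ₁`, a base point `s₁` with
`g ↦ g • s₁` bijective, and a homomorphism `π₁ : G → Γ₁` with `g • s₁ = (π₁ g)⁻¹ • s₁`
(for instance `S₁ = G` with left translation and `Γ₁ = G` acting by `γ • x = x * γ⁻¹`).

If a finite `F_p[G]`-module `M` carries a linear endomorphism `u` with
`∑ g, ρ g ∘ u ∘ ρ g⁻¹ = id` (Higman's criterion for projectivity), then `M` is the equivariant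
retract of `Fin n → (S₁ → F_p)`, `n = dim M`, cut out by the idempotent matrix
`e j k = ∑ δ, [u ∘ ρ δ]_{jk} • π₁ δ` over `F_p[Γ₁]`.  Hence `IsEPAt` at the free model gives
`χ M = f M`.  In particular this holds for every `M` when `p ∤ |G|`.
-/

namespace Fermat.Agent.S56.EC.SteinbergInd

open scoped BigOperators

section Higman

variable {p : ℕ} {G : Type} [Group G] [Fintype G]
  {S₁ Γ₁ : Type} [MulAction G S₁] [Group Γ₁] [MulAction Γ₁ S₁]
  {M : Type} [AddCommGroup M] [Module (ZMod p) M] {n : ℕ}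

/-- The matrix `e j k = ∑ δ, [u ∘ ρ δ]_{jk} • π₁ δ` over the group algebra of `Γ₁`. -/
noncomputable def hMat (c : Module.Basis (Fin n) (ZMod p) M) (ρ : Representation (ZMod p) G M)
    (u : M →ₗ[ZMod p] M) (π₁ : G →* Γ₁) : Matrix (Fin n) (Fin n) (MonoidAlgebra (ZMod p) Γ₁) :=
  fun j k => ∑ δ : G, MonoidAlgebra.single (π₁ δ) (c.repr (u (ρ δ (c k))) j)

theorem hMat_mul_self (c : Module.Basis (Fin n) (ZMod p) M) (ρ : Representation (ZMod p) G M)
    (u : M →ₗ[ZMod p] M) (π₁ : G →* Γ₁) (hu : ∀ m, ∑ g : G, ρ g (u (ρ g⁻¹ m)) = m) :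
    hMat c ρ u π₁ * hMat c ρ u π₁ = hMat c ρ u π₁ := by
  funext j l
  have hΘ : ∀ δ ε : G, ∑ k, c.repr (u (ρ δ (c k))) j * c.repr (u (ρ ε (c l))) k
      = c.repr (u (ρ δ (u (ρ ε (c l))))) j := by
    intro δ ε
    conv_rhs => rw [← c.sum_repr (u (ρ ε (c l)))]
    simp only [map_sum, map_smul, Finsupp.coe_finsetSum, Finset.sum_apply, Finsupp.smul_apply,
      smul_eq_mul]
    exact Finset.sum_congr rfl fun k _ => mul_comm _ _
  have hD : ∀ η : G, ∑ δ : G, c.repr (u (ρ δ (u (ρ (δ⁻¹ * η) (c l))))) j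
      = c.repr (u (ρ η (c l))) j := by
    intro η
    have h1 := hu (ρ η (c l))
    have h2 : ∑ δ : G, c.repr (u (ρ δ (u (ρ (δ⁻¹ * η) (c l))))) j
        = c.repr (u (∑ δ : G, ρ δ (u (ρ δ⁻¹ (ρ η (c l)))))) j := by
      simp only [map_sum, map_mul, Module.End.mul_apply, Finsupp.coe_finsetSum,
        Finset.sum_apply]
    rw [h2, h1]
  rw [Matrix.mul_apply]
  calc ∑ k, hMat c ρ u π₁ j k * hMat c ρ u π₁ k l
      = ∑ k, ∑ δ : G, ∑ ε : G, MonoidAlgebra.single (π₁ δ * π₁ ε)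
          (c.repr (u (ρ δ (c k))) j * c.repr (u (ρ ε (c l))) k) := by
        simp only [hMat, Finset.sum_mul, Finset.mul_sum, MonoidAlgebra.single_mul_single]
        exact Finset.sum_congr rfl fun k _ => Finset.sum_comm
    _ = ∑ δ : G, ∑ ε : G, MonoidAlgebra.single (π₁ δ * π₁ ε)
          (c.repr (u (ρ δ (u (ρ ε (c l))))) j) := by
        rw [Finset.sum_comm]
        refine Finset.sum_congr rfl fun δ _ => ?_
        rw [Finset.sum_comm]
        refine Finset.sum_congr rfl fun ε _ => ?_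
        rw [← hΘ δ ε]
        exact (map_sum (MonoidAlgebra.singleAddHom (π₁ δ * π₁ ε)) _ _).symm
    _ = ∑ δ : G, ∑ η : G, MonoidAlgebra.single (π₁ η)
          (c.repr (u (ρ δ (u (ρ (δ⁻¹ * η) (c l))))) j) := by
        refine Finset.sum_congr rfl fun δ _ => ?_
        refine Fintype.sum_equiv (Equiv.mulLeft δ) _ _ fun ε => ?_
        simp
    _ = ∑ η : G, MonoidAlgebra.single (π₁ η) (c.repr (u (ρ η (c l))) j) := by
        rw [Finset.sum_comm]
        refine Finset.sum_congr rfl fun η _ => ?_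
        rw [← hD η]
        exact map_sum (MonoidAlgebra.singleAddHom (π₁ η)) _ _ |>.symm
    _ = hMat c ρ u π₁ j l := rfl

/-- The inclusion `M → Fin n → (S₁ → F_p)`: coordinates of `u (ρ (sec s)⁻¹ m)`. -/
noncomputable def hiMap (c : Module.Basis (Fin n) (ZMod p) M) (ρ : Representation (ZMod p) G M)
    (u : M →ₗ[ZMod p] M) (sec : S₁ → G) : M →ₗ[ZMod p] (Fin n → S₁ → ZMod p) where
  toFun m := fun k s => c.repr (u (ρ (sec s)⁻¹ m)) k
  map_add' x y := by funext k s; simp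
  map_smul' a x := by funext k s; simp

omit [Fintype G] [MulAction G S₁] [Group Γ₁] [MulAction Γ₁ S₁] in
theorem hiMap_apply (c : Module.Basis (Fin n) (ZMod p) M) (ρ : Representation (ZMod p) G M)
    (u : M →ₗ[ZMod p] M) (sec : S₁ → G) (m : M) (k : Fin n) (s : S₁) :
    hiMap c ρ u sec m k s = c.repr (u (ρ (sec s)⁻¹ m)) k := rfl

/-- The retraction `Fin n → (S₁ → F_p) → M`, `v ↦ ∑ g, ρ g (∑ k, v k (g • s₁) • c k)`. -/
noncomputable def hrMap (c : Module.Basis (Fin n) (ZMod p) M) (ρ : Representation (ZMod p) G M)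
    (s₁ : S₁) : (Fin n → S₁ → ZMod p) →ₗ[ZMod p] M :=
  ∑ g : G, (ρ g).comp
    (∑ k : Fin n, (LinearMap.toSpanSingleton (ZMod p) M (c k)).comp (evL p n S₁ k (g • s₁)))

omit [Group Γ₁] [MulAction Γ₁ S₁] in
theorem hrMap_apply (c : Module.Basis (Fin n) (ZMod p) M) (ρ : Representation (ZMod p) G M)
    (s₁ : S₁) (v : Fin n → S₁ → ZMod p) :
    hrMap c ρ s₁ v = ∑ g : G, ρ g (∑ k, v k (g • s₁) • c k) := by
  simp [hrMap, evL, LinearMap.sum_apply]

omit [Fintype G] [Group Γ₁] [MulAction Γ₁ S₁] in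
theorem hiMap_equiv (c : Module.Basis (Fin n) (ZMod p) M) (ρ : Representation (ZMod p) G M)
    (u : M →ₗ[ZMod p] M) {s₁ : S₁} {sec : S₁ → G} (hsec₁ : ∀ s, sec s • s₁ = s)
    (hsec₂ : ∀ g, sec (g • s₁) = g) (h : G) (m : M) (k : Fin n) :
    hiMap c ρ u sec (ρ h m) k = funRep (ZMod p) G S₁ h (hiMap c ρ u sec m k) := by
  funext s
  have h1 : sec (h⁻¹ • s) = h⁻¹ * sec s := by
    conv_lhs => rw [← hsec₁ s, ← mul_smul, hsec₂]
  rw [funRep_apply, hiMap_apply, hiMap_apply, h1, mul_inv_rev, inv_inv, map_mul]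
  rfl

omit [Group Γ₁] [MulAction Γ₁ S₁] in
theorem hrMap_equiv (c : Module.Basis (Fin n) (ZMod p) M) (ρ : Representation (ZMod p) G M)
    (s₁ : S₁) (h : G) (v : Fin n → S₁ → ZMod p) :
    hrMap c ρ s₁ (fun k => funRep (ZMod p) G S₁ h (v k)) = ρ h (hrMap c ρ s₁ v) := by
  rw [hrMap_apply, hrMap_apply, map_sum]
  refine (Fintype.sum_equiv (Equiv.mulLeft h) _ _ fun g => ?_).symm
  simp [mul_smul]

omit [Group Γ₁] [MulAction Γ₁ S₁] in
/-- `r ∘ i` is Higman's average `∑ g, ρ g ∘ u ∘ ρ g⁻¹` (no hypothesis on `u`). -/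
theorem hrMap_hiMap_eq_sum (c : Module.Basis (Fin n) (ZMod p) M)
    (ρ : Representation (ZMod p) G M) (u : M →ₗ[ZMod p] M) {s₁ : S₁} {sec : S₁ → G}
    (hsec₂ : ∀ g, sec (g • s₁) = g) (m : M) :
    hrMap c ρ s₁ (hiMap c ρ u sec m) = ∑ g : G, ρ g (u (ρ g⁻¹ m)) := by
  rw [hrMap_apply]
  refine Finset.sum_congr rfl fun g _ => ?_
  congr 1
  simp only [hiMap_apply, hsec₂]
  exact c.sum_repr _

omit [Group Γ₁] [MulAction Γ₁ S₁] in
theorem hrMap_hiMap (c : Module.Basis (Fin n) (ZMod p) M) (ρ : Representation (ZMod p) G M)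
    (u : M →ₗ[ZMod p] M) (hu : ∀ m, ∑ g : G, ρ g (u (ρ g⁻¹ m)) = m) {s₁ : S₁} {sec : S₁ → G}
    (hsec₂ : ∀ g, sec (g • s₁) = g) (m : M) :
    hrMap c ρ s₁ (hiMap c ρ u sec m) = m := by
  rw [hrMap_hiMap_eq_sum c ρ u hsec₂, hu]

omit [Group Γ₁] [MulAction Γ₁ S₁] in
/-- `i ∘ r` in coordinates: a right convolution (no hypothesis on `u`, no `Γ₁`). -/
theorem hiMap_hrMap_apply (c : Module.Basis (Fin n) (ZMod p) M)
    (ρ : Representation (ZMod p) G M) (u : M →ₗ[ZMod p] M) (s₁ : S₁) (sec : S₁ → G)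
    (v : Fin n → S₁ → ZMod p) (j : Fin n) (s : S₁) :
    hiMap c ρ u sec (hrMap c ρ s₁ v) j s
      = ∑ k, ∑ δ : G, c.repr (u (ρ δ (c k))) j * v k ((sec s * δ) • s₁) := by
  rw [hiMap_apply, hrMap_apply]
  have hL : c.repr (u (ρ (sec s)⁻¹ (∑ g : G, ρ g (∑ k, v k (g • s₁) • c k)))) j
      = ∑ k, ∑ h : G, v k (h • s₁) * c.repr (u (ρ ((sec s)⁻¹ * h) (c k))) j := by
    simp only [map_sum, map_smul, map_mul, Module.End.mul_apply, Finsupp.smul_apply,
      Finsupp.coe_finsetSum, Finset.sum_apply, smul_eq_mul]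
    rw [Finset.sum_comm]
  rw [hL]
  refine Finset.sum_congr rfl fun k _ => ?_
  refine (Fintype.sum_equiv (Equiv.mulLeft (sec s)) _ _ fun δ => ?_).symm
  simp only [Equiv.coe_mulLeft]
  rw [inv_mul_cancel_left, mul_comm]

theorem hiMap_hrMap [SMulCommClass G Γ₁ S₁] (c : Module.Basis (Fin n) (ZMod p) M)
    (ρ : Representation (ZMod p) G M) (u : M →ₗ[ZMod p] M) {s₁ : S₁} {sec : S₁ → G}
    (hsec₁ : ∀ s, sec s • s₁ = s) (π₁ : G →* Γ₁) (hπ₁ : ∀ g : G, g • s₁ = (π₁ g)⁻¹ • s₁)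
    (v : Fin n → S₁ → ZMod p) :
    hiMap c ρ u sec (hrMap c ρ s₁ v) = opOf (funRep (ZMod p) Γ₁ S₁) (hMat c ρ u π₁) v := by
  funext j s
  rw [opOf_apply, hiMap_hrMap_apply]
  have hR : ∀ k, ((funRep (ZMod p) Γ₁ S₁).asAlgebraHom (hMat c ρ u π₁ j k) (v k)) s
      = ∑ δ : G, c.repr (u (ρ δ (c k))) j * v k ((π₁ δ)⁻¹ • s) := by
    intro k
    simp only [hMat, map_sum, Representation.asAlgebraHom_single, LinearMap.smul_apply,
      LinearMap.sum_apply, Pi.smul_apply, Finset.sum_apply, funRep_apply, smul_eq_mul]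
  simp only [Finset.sum_apply, hR]
  refine Finset.sum_congr rfl fun k _ => ?_
  refine Finset.sum_congr rfl fun δ _ => ?_
  have h1 : (sec s * δ) • s₁ = (π₁ δ)⁻¹ • s := by
    rw [mul_smul, hπ₁ δ, smul_comm, hsec₁]
  rw [h1]

end Higman

/-- **Higman's criterion gives an (EP) module.**  In a free model `(S₁, Γ₁, s₁, π₁)`, a finite
`F_p[G]`-module with a linear endomorphism `u` such that `∑ g, ρ g ∘ u ∘ ρ g⁻¹ = id` satisfies
`χ M = f M`. -/
theorem chi_eq_f_of_higman {p : ℕ} [Fact p.Prime] {G : Type} [Group G] [Fintype G]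
    {S₁ Γ₁ : Type} [MulAction G S₁] [Group Γ₁] [MulAction Γ₁ S₁] [SMulCommClass G Γ₁ S₁]
    (s₁ : S₁) (hbij : Function.Bijective fun g : G => g • s₁)
    (π₁ : G →* Γ₁) (hπ₁ : ∀ g : G, g • s₁ = (π₁ g)⁻¹ • s₁)
    (χ f : Inv p G) (hEP1 : IsEPAt χ f (funRep (ZMod p) G S₁) (funRep (ZMod p) Γ₁ S₁))
    (M : Type) [AddCommGroup M] [Module (ZMod p) M] [Finite M]
    (ρ : Representation (ZMod p) G M) (u : M →ₗ[ZMod p] M)
    (hu : ∀ m, ∑ g : G, ρ g (u (ρ g⁻¹ m)) = m) : χ M ρ = f M ρ := by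
  have hsec₁ : ∀ s, (Equiv.ofBijective _ hbij).symm s • s₁ = s :=
    fun s => (Equiv.ofBijective _ hbij).apply_symm_apply s
  have hsec₂ : ∀ g : G, (Equiv.ofBijective _ hbij).symm (g • s₁) = g :=
    fun g => (Equiv.ofBijective _ hbij).symm_apply_apply g
  exact hEP1 _ (hMat (Module.finBasis (ZMod p) M) ρ u π₁) (hMat_mul_self _ ρ u π₁ hu) M ρ
    (hiMap (Module.finBasis (ZMod p) M) ρ u (Equiv.ofBijective _ hbij).symm)
    (hrMap (Module.finBasis (ZMod p) M) ρ s₁)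
    (fun g x k => hiMap_equiv _ ρ u hsec₁ hsec₂ g x k)
    (fun g v => hrMap_equiv _ ρ s₁ g v)
    (fun x => hrMap_hiMap _ ρ u hu hsec₂ x)
    (fun v => hiMap_hrMap _ ρ u hsec₁ π₁ hπ₁ v)

/-- **The case `p ∤ |G|`.**  In a free model, `χ M = f M` for every finite `F_p[G]`-module. -/
theorem chi_eq_f_of_card_ne_zero {p : ℕ} [Fact p.Prime] {G : Type} [Group G] [Fintype G]
    {S₁ Γ₁ : Type} [MulAction G S₁] [Group Γ₁] [MulAction Γ₁ S₁] [SMulCommClass G Γ₁ S₁]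
    (s₁ : S₁) (hbij : Function.Bijective fun g : G => g • s₁)
    (π₁ : G →* Γ₁) (hπ₁ : ∀ g : G, g • s₁ = (π₁ g)⁻¹ • s₁)
    (χ f : Inv p G) (hEP1 : IsEPAt χ f (funRep (ZMod p) G S₁) (funRep (ZMod p) Γ₁ S₁))
    (hG : (Fintype.card G : ZMod p) ≠ 0)
    (M : Type) [AddCommGroup M] [Module (ZMod p) M] [Finite M]
    (ρ : Representation (ZMod p) G M) : χ M ρ = f M ρ := by
  refine chi_eq_f_of_higman s₁ hbij π₁ hπ₁ χ f hEP1 M ρ
    ((Fintype.card G : ZMod p)⁻¹ • (LinearMap.id : M →ₗ[ZMod p] M)) (fun m => ?_)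
  have h : ∀ g : G,
      ρ g (((Fintype.card G : ZMod p)⁻¹ • (LinearMap.id : M →ₗ[ZMod p] M)) (ρ g⁻¹ m))
      = (Fintype.card G : ZMod p)⁻¹ • m := by
    intro g
    show ρ g ((Fintype.card G : ZMod p)⁻¹ • ρ g⁻¹ m) = _
    rw [(ρ g).map_smul, ← Module.End.mul_apply, ← map_mul, mul_inv_cancel, map_one]
    rfl
  simp only [h, Finset.sum_const, Finset.card_univ]
  rw [← Nat.cast_smul_eq_nsmul (ZMod p), smul_smul, mul_inv_cancel₀ hG, one_smul]

/-- **The retract attached to a Higman operator, in structural form** (no invariants).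
`W` a finite `F_p[G]`-module with an equivariant splitting `q : W → N`, `s : N → W`, `q ∘ s = id`,
and a linear `u : W → W` with `∑ g, ρ g ∘ u ∘ ρ g⁻¹ = 1 - s ∘ q`.  Then the complement
`ker q` is an equivariant retract of `Fin n → (G → F_p)` (left translation): there are
equivariant `I`, `R` with `R ∘ I = 1 - s ∘ q`, `q ∘ R = 0`, and every entry of `I ∘ R` is a
right convolution `t ↦ (x ↦ ∑ y, c y * t (x * y))`. -/
theorem exists_retract_of_higman {p : ℕ} [Fact p.Prime] {G : Type} [Group G] [Fintype G]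
    {W N : Type} [AddCommGroup W] [Module (ZMod p) W] [Finite W] [AddCommGroup N]
    [Module (ZMod p) N] (ρW : Representation (ZMod p) G W) (ρN : Representation (ZMod p) G N)
    (q : W →ₗ[ZMod p] N) (s : N →ₗ[ZMod p] W)
    (hq : ∀ g w, q (ρW g w) = ρN g (q w)) (hs : ∀ g m, s (ρN g m) = ρW g (s m))
    (hqs : ∀ m, q (s m) = m) (u : W →ₗ[ZMod p] W)
    (hu : ∀ w, ∑ g : G, ρW g (u (ρW g⁻¹ w)) = w - s (q w)) :
    ∃ (n : ℕ) (I : W →ₗ[ZMod p] (Fin n → (G → ZMod p)))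
      (R : (Fin n → (G → ZMod p)) →ₗ[ZMod p] W),
      (∀ g w k, I (ρW g w) k = ltrans (ZMod p) G (ZMod p) g (I w k)) ∧
      (∀ g v, R (fun k => ltrans (ZMod p) G (ZMod p) g (v k)) = ρW g (R v)) ∧
      (∀ w, R (I w) = w - s (q w)) ∧ (∀ v, q (R v) = 0) ∧
      ∀ i j, ∃ (S : Finset G) (c : G → ZMod p), ∀ (t : G → ZMod p) (x : G),
        I (R (Pi.single j t)) i x = ∑ y ∈ S, c y * t (x * y) := by
  classical
  set c := Module.finBasis (ZMod p) W with hc
  set π₀ : W →ₗ[ZMod p] W := LinearMap.id - s.comp q with hπ₀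
  have hπ₀a : ∀ w, π₀ w = w - s (q w) := fun w => rfl
  have hπ₀e : ∀ g w, π₀ (ρW g w) = ρW g (π₀ w) := by
    intro g w
    rw [hπ₀a, hπ₀a, hq, hs, map_sub]
  have hsec₁ : ∀ x : G, (id x : G) • (1 : G) = x := fun x => mul_one x
  have hsec₂ : ∀ g : G, (id (g • (1 : G)) : G) = g := fun g => mul_one g
  refine ⟨_, hiMap c ρW u (id : G → G), π₀.comp (hrMap c ρW (1 : G)), ?_, ?_, ?_, ?_, ?_⟩
  · intro g w k
    exact hiMap_equiv c ρW u hsec₁ hsec₂ g w k
  · intro g v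
    have h1 := hrMap_equiv c ρW (1 : G) g v
    show π₀ (hrMap c ρW (1 : G) (fun k => ltrans (ZMod p) G (ZMod p) g (v k))) = _
    show π₀ (hrMap c ρW (1 : G) (fun k => funRep (ZMod p) G G g (v k))) = _
    rw [h1, hπ₀e]
    rfl
  · intro w
    show π₀ (hrMap c ρW (1 : G) (hiMap c ρW u id w)) = _
    rw [hrMap_hiMap_eq_sum c ρW u hsec₂, hu, hπ₀a, map_sub, map_sub, hqs, sub_self, sub_zero]
  · intro v
    show q (π₀ (hrMap c ρW (1 : G) v)) = 0
    rw [hπ₀a, map_sub, hqs, sub_self]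
  · intro i j
    refine ⟨Finset.univ, fun y => c.repr (u (π₀ (ρW y (c j)))) i, fun t x => ?_⟩
    have h1 : hiMap c ρW u id (π₀ (hrMap c ρW (1 : G) (Pi.single j t))) i x
        = hiMap c ρW (u.comp π₀) id (hrMap c ρW (1 : G) (Pi.single j t)) i x := by
      rw [hiMap_apply, hiMap_apply, ← hπ₀e]
      rfl
    show hiMap c ρW u id (π₀ (hrMap c ρW (1 : G) (Pi.single j t))) i x = _
    rw [h1, hiMap_hrMap_apply]
    rw [Finset.sum_eq_single j]
    · refine Finset.sum_congr rfl fun y _ => ?_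
      rw [Pi.single_eq_same]
      show c.repr (u (π₀ (ρW y (c j)))) i * t (x * y * 1)
        = c.repr (u (π₀ (ρW y (c j)))) i * t (x * y)
      rw [mul_one]
    · intro k _ hk
      refine Finset.sum_eq_zero fun y _ => ?_
      rw [Pi.single_eq_of_ne hk]
      simp
    · intro h
      exact absurd (Finset.mem_univ j) h

end Fermat.Agent.S56.EC.SteinbergInd
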