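import Fermat.Agent.S56.EC.Steinberg

/-!
# S56 / EC.5: the Higman operator on `Fun(G ⧸ N_G(P), N)` for a TI Sylow subgroup

`G` a finite group, `P` a Sylow `p`-subgroup which is TI, `B = N_G(P)`, `Ω = G ⧸ B`,
`ω₀ = 1·B`.  `P` fixes `ω₀` and acts freely on `Ω ∖ {ω₀}`; let `R ⊆ Ω ∖ {ω₀}` be a set of
representatives of the `P`-orbits, `w = 1_R`.  On `W = Fun(Ω, N)` (action `coind B ρ`) put

* `q φ = |Ω|⁻¹ ∑ ω, φ ω`, `s m = const m`;
* `θ φ ω = w ω • φ ω - [ω = ω₀] ∑ ω', w ω' • φ ω'`, `u = [G:P]⁻¹ θ`.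

Then `∑ g, g ∘ u ∘ g⁻¹ = 1 - s ∘ q` (`exists_higman_coind`), which is the hypothesis of
`exists_retract_of_higman` (`SteinbergInd/Higman.lean`); together they give `Steinberg.ProjSeam`.

All counting is done in `ℕ` and cast to `𝔽_p` at the end:
`|P| · #{g | g⁻¹ ω ∈ R} = |G| - |B|` and `|P| · #{g | g ω₀ = ω, g⁻¹ ω'' ∈ R} = |B|` (`ω'' ≠ ω`).
-/

namespace Fermat.Agent.S56.EC.SteinbergInd

open scoped BigOperators
open Fermat.Agent.S56.EC.Steinberg (Nm IsTI)

/-! ### A counting lemma -/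

section Count

variable {G : Type} [Group G] (P : Subgroup G) [Fintype ↥P] {Ω : Type} [MulAction G Ω]

/-- `P` acts on `Ω` with a set `R` meeting every orbit off `ω₀` exactly once (in the strong
sense: exactly one `x ∈ P` moves `β` into `R`).  If `D ⊆ G` is stable under right multiplication
by `P` and `g⁻¹ ω ≠ ω₀` on `D`, then `|P| · #{g ∈ D | g⁻¹ ω ∈ R} = |D|`. -/
theorem card_mul_card_filter [DecidableEq G] (ω₀ : Ω) (R : Ω → Prop) [DecidablePred R]
    (hR : ∀ β : Ω, β ≠ ω₀ → ∃! x : ↥P, R ((x : G) • β))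
    (ω : Ω) (D : Finset G) (hD : ∀ g ∈ D, ∀ x : ↥P, g * (x : G) ∈ D)
    (hD0 : ∀ g ∈ D, g⁻¹ • ω ≠ ω₀) :
    Fintype.card ↥P * (D.filter fun g => R (g⁻¹ • ω)).card = D.card := by
  have h1 : ∀ g ∈ D, (Finset.univ.filter fun x : ↥P => R ((x : G) • g⁻¹ • ω)).card = 1 := by
    intro g hg
    obtain ⟨x, hx, hux⟩ := hR (g⁻¹ • ω) (hD0 g hg)
    rw [Finset.card_eq_one]
    refine ⟨x, ?_⟩
    ext y
    simp only [Finset.mem_filter, Finset.mem_univ, true_and, Finset.mem_singleton]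
    exact ⟨fun hy => hux y hy, fun hy => hy ▸ hx⟩
  calc Fintype.card ↥P * (D.filter fun g => R (g⁻¹ • ω)).card
      = ∑ _x : ↥P, (D.filter fun g => R (g⁻¹ • ω)).card := by
        rw [Finset.sum_const, Finset.card_univ, smul_eq_mul]
    _ = ∑ x : ↥P, (D.filter fun g => R ((x : G) • g⁻¹ • ω)).card := by
        refine Finset.sum_congr rfl fun x _ => ?_
        symm
        refine Finset.card_bij (fun g _ => g * (x : G)⁻¹) ?_ ?_ ?_
        · intro g hg
          rw [Finset.mem_filter] at hg ⊢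
          refine ⟨by simpa using hD g hg.1 x⁻¹, ?_⟩
          rw [mul_inv_rev, inv_inv, mul_smul]
          exact hg.2
        · intro g₁ _ g₂ _ h
          exact mul_right_cancel h
        · intro g' hg'
          rw [Finset.mem_filter] at hg'
          refine ⟨g' * (x : G), ?_, by group⟩
          rw [Finset.mem_filter]
          refine ⟨hD g' hg'.1 x, ?_⟩
          rw [mul_inv_rev, mul_smul, smul_inv_smul]
          exact hg'.2
    _ = ∑ g ∈ D, (Finset.univ.filter fun x : ↥P => R ((x : G) • g⁻¹ • ω)).card := by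
        simp only [Finset.card_filter]
        rw [Finset.sum_comm]
    _ = D.card := by
        rw [Finset.sum_congr rfl h1, Finset.sum_const, smul_eq_mul, mul_one]

end Count

/-! ### Orbit representatives -/

section Orbit

variable {G : Type} [Group G] (P : Subgroup G) {Ω : Type} [MulAction G Ω]

/-- The chosen representative of the `P`-orbit of `ω`. -/
noncomputable def orep (ω : Ω) : Ω :=
  Quotient.out (Quotient.mk (MulAction.orbitRel ↥P Ω) ω)

theorem exists_smul_eq_orep (ω : Ω) : ∃ x : ↥P, (x : G) • ω = orep P ω := by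
  have h : (MulAction.orbitRel ↥P Ω).r (orep P ω) ω :=
    Quotient.exact (s := MulAction.orbitRel ↥P Ω) (Quotient.out_eq _)
  obtain ⟨x, hx⟩ := h
  exact ⟨x, hx⟩

theorem orep_smul (x : ↥P) (ω : Ω) : orep P ((x : G) • ω) = orep P ω := by
  unfold orep
  congr 1
  exact Quotient.sound (s := MulAction.orbitRel ↥P Ω) ⟨x, rfl⟩

/-- If `P` fixes `ω₀` and acts freely off `ω₀`, then for `β ≠ ω₀` exactly one `x ∈ P` moves
`β` to the chosen representative of its orbit. -/
theorem existsUnique_orep (ω₀ : Ω) (hfix : ∀ x : ↥P, (x : G) • ω₀ = ω₀)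
    (hfree : ∀ x : ↥P, ∀ β : Ω, β ≠ ω₀ → (x : G) • β = β → x = 1) (β : Ω) (hβ : β ≠ ω₀) :
    ∃! x : ↥P, (x : G) • β ≠ ω₀ ∧ orep P ((x : G) • β) = (x : G) • β := by
  have hne : ∀ x : ↥P, (x : G) • β ≠ ω₀ := by
    intro x h
    apply hβ
    have h2 : β = (x : G)⁻¹ • ω₀ := by rw [← h, inv_smul_smul]
    rw [h2]
    simpa using hfix x⁻¹
  obtain ⟨x₁, hx₁⟩ := exists_smul_eq_orep P β
  refine ⟨x₁, ⟨hne x₁, by rw [orep_smul, hx₁]⟩, ?_⟩
  rintro y ⟨_, hy⟩
  rw [orep_smul] at hy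
  have h3 : ((x₁⁻¹ * y : ↥P) : G) • β = β := by
    rw [Subgroup.coe_mul, Subgroup.coe_inv, mul_smul, ← hy, ← hx₁, inv_smul_smul]
  have h4 := hfree (x₁⁻¹ * y) β hβ h3
  exact (inv_mul_eq_one.mp h4).symm

end Orbit

/-! ### `P` is free on `G ⧸ N_G(P)` off the base point -/

section Free

variable {p : ℕ} {G : Type} [Group G]

/-- A `p`-element of the normaliser of a Sylow `p`-subgroup lies in it. -/
theorem mem_sylow_of_pow_eq_one (P : Sylow p G) {y : G} {m : ℕ} (hy : y ^ p ^ m = 1)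
    (hyN : y ∈ Nm (P : Subgroup G)) : y ∈ (P : Subgroup G) := by
  have hzp : IsPGroup p ↥(Subgroup.zpowers y) := by
    apply IsPGroup.of_card_dvd_pow (n := m)
    rw [Nat.card_zpowers]
    exact orderOf_dvd_of_pow_eq_one hy
  have h9 := hzp.inf_normalizer_sylow P
  have h10 : y ∈ Subgroup.zpowers y ⊓ (P : Subgroup G) := by
    rw [← h9]
    exact ⟨Subgroup.mem_zpowers _, hyN⟩
  exact h10.2

theorem smul_one_eq (P : Subgroup G) (x : ↥P) :
    (x : G) • ((1 : G) : G ⧸ Nm P) = ((1 : G) : G ⧸ Nm P) := by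
  rw [MulAction.Quotient.smul_coe, smul_eq_mul, mul_one]
  exact (QuotientGroup.eq.mpr (by simpa using Subgroup.le_normalizer x.2)).symm

theorem free_of_isTI (P : Sylow p G) (hTI : IsTI (P : Subgroup G))
    (x : ↥(P : Subgroup G)) (β : G ⧸ Nm (P : Subgroup G))
    (hβ : β ≠ ((1 : G) : G ⧸ Nm (P : Subgroup G))) (hx : (x : G) • β = β) : x = 1 := by
  induction β using QuotientGroup.induction_on with
  | H g =>
    have hg : g ∉ Nm (P : Subgroup G) := by
      intro h
      apply hβ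
      exact QuotientGroup.eq.mpr (by simpa using (Nm (P : Subgroup G)).inv_mem h)
    rw [MulAction.Quotient.smul_coe, smul_eq_mul] at hx
    have hfix : g⁻¹ * (x : G) * g ∈ Nm (P : Subgroup G) := by
      have := QuotientGroup.eq.mp hx.symm
      simpa [mul_assoc] using this
    obtain ⟨m, hm⟩ := P.isPGroup' x
    have hxm : (x : G) ^ p ^ m = 1 := by simpa using congrArg Subtype.val hm
    have hym : (g⁻¹ * (x : G) * g) ^ p ^ m = 1 := by
      have h1 : g⁻¹ * (x : G) * g = g⁻¹ * (x : G) * g⁻¹⁻¹ := by rw [inv_inv]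
      rw [h1, conj_pow, hxm, mul_one, mul_inv_cancel]
    have hyP := mem_sylow_of_pow_eq_one P hym hfix
    have hg' : g⁻¹ ∉ Nm (P : Subgroup G) := fun h =>
      hg (by simpa using (Nm (P : Subgroup G)).inv_mem h)
    have h2 := hTI g⁻¹ hg' (x : G) x.2 (by rw [inv_inv]; exact hyP)
    exact Subtype.ext h2

end Free

/-! ### The operator `θ` and its conjugates -/

section Operator

variable {k : Type} [Field k] {G : Type} [Group G] [Fintype G] (B : Subgroup G)
  [Fintype (G ⧸ B)] [DecidableEq (G ⧸ B)]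
  {N : Type} [AddCommGroup N] [Module k N] (ρ : Representation k G N)

/-- `θ φ ω = w ω • φ ω - [ω = ω₀] ∑ ω', w ω' • φ ω'`. -/
noncomputable def thetaOp (w : G ⧸ B → k) (N : Type) [AddCommGroup N] [Module k N] :
    (G ⧸ B → N) →ₗ[k] (G ⧸ B → N) :=
  LinearMap.pi fun ω =>
    w ω • (LinearMap.proj ω : (G ⧸ B → N) →ₗ[k] N) -
      (if ω = ((1 : G) : G ⧸ B) then
        ∑ ω', w ω' • (LinearMap.proj ω' : (G ⧸ B → N) →ₗ[k] N) else 0)

omit [Fintype G] in
theorem thetaOp_apply (w : G ⧸ B → k) (φ : G ⧸ B → N) (ω : G ⧸ B) :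
    thetaOp B w N φ ω
      = w ω • φ ω - (if ω = ((1 : G) : G ⧸ B) then ∑ ω', w ω' • φ ω' else 0) := by
  unfold thetaOp
  split_ifs with h <;> simp [h, LinearMap.sum_apply]

omit [Fintype G] in
theorem coind_thetaOp_coind (w : G ⧸ B → k) (g : G) (φ : G ⧸ B → N) (ω : G ⧸ B) :
    coind B ρ g (thetaOp B w N (coind B ρ g⁻¹ φ)) ω
      = w (g⁻¹ • ω) • φ ω -
        (if g⁻¹ • ω = ((1 : G) : G ⧸ B) then ∑ ω'', w (g⁻¹ • ω'') • φ ω'' else 0) := by
  have hρ : ∀ v : N, ρ g (ρ g⁻¹ v) = v := fun v => by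
    rw [← Module.End.mul_apply, ← map_mul, mul_inv_cancel, map_one, Module.End.one_apply]
  rw [coind_apply, thetaOp_apply, map_sub, map_smul, coind_apply, inv_inv, smul_inv_smul, hρ]
  congr 1
  split_ifs with h
  · rw [map_sum]
    refine Fintype.sum_equiv (MulAction.toPerm g) _ _ fun ω' => ?_
    rw [map_smul, coind_apply, inv_inv, hρ]
    simp
  · exact map_zero _

/-- The sum of the conjugates of `θ`, given the three weight sums. -/
theorem sum_conj_thetaOp (w : G ⧸ B → k) (A C : k)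
    (hA : ∀ ω : G ⧸ B, ∑ g : G, w (g⁻¹ • ω) = A)
    (hC : ∀ ω ω'' : G ⧸ B, ω'' ≠ ω →
      ∑ g : G, (if g⁻¹ • ω = ((1 : G) : G ⧸ B) then w (g⁻¹ • ω'') else 0) = C)
    (hC0 : ∀ ω : G ⧸ B,
      ∑ g : G, (if g⁻¹ • ω = ((1 : G) : G ⧸ B) then w (g⁻¹ • ω) else 0) = 0)
    (φ : G ⧸ B → N) (ω : G ⧸ B) :
    (∑ g : G, coind B ρ g (thetaOp B w N (coind B ρ g⁻¹ φ))) ω
      = (A + C) • φ ω - C • ∑ ω'', φ ω'' := by
  rw [Finset.sum_apply]
  simp only [coind_thetaOp_coind]
  rw [Finset.sum_sub_distrib, ← Finset.sum_smul, hA]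
  have h2 : ∑ g : G, (if g⁻¹ • ω = ((1 : G) : G ⧸ B) then
        ∑ ω'', w (g⁻¹ • ω'') • φ ω'' else 0)
      = ∑ ω'', (∑ g : G, (if g⁻¹ • ω = ((1 : G) : G ⧸ B) then w (g⁻¹ • ω'') else 0)) • φ ω'' := by
    simp only [Finset.sum_smul, ite_smul, zero_smul]
    rw [Finset.sum_comm]
    refine Finset.sum_congr rfl fun g _ => ?_
    split_ifs
    · rfl
    · simp
  have h3 : ∀ ω'' : G ⧸ B,
      (∑ g : G, (if g⁻¹ • ω = ((1 : G) : G ⧸ B) then w (g⁻¹ • ω'') else 0)) • φ ω''
        = C • φ ω'' - (if ω'' = ω then C • φ ω'' else 0) := by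
    intro ω''
    by_cases h : ω'' = ω
    · rw [if_pos h, h, hC0, zero_smul, sub_self]
    · rw [if_neg h, hC ω ω'' h, sub_zero]
  rw [h2]
  simp only [h3]
  rw [Finset.sum_sub_distrib, ← Finset.smul_sum, Finset.sum_ite_eq' Finset.univ ω,
    if_pos (Finset.mem_univ ω), add_smul]
  abel

end Operator

/-! ### The exit -/

/-- **The Higman operator on `Fun(G ⧸ N_G(P), N)`.**  For a TI Sylow `p`-subgroup `P` of a finite
group `G` and any `𝔽_p[G]`-module `N`, the module `W = Fun(G ⧸ N_G(P), N)` (action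
`coind (Nm P) ρ`) has an equivariant splitting `q : W → N`, `s : N → W`, `q ∘ s = 1`, and a
linear `u : W → W` with `∑ g, g ∘ u ∘ g⁻¹ = 1 - s ∘ q`. -/
theorem exists_higman_coind {p : ℕ} [Fact p.Prime] {G : Type} [Group G] [Fintype G]
    (P : Sylow p G) (hTI : IsTI (P : Subgroup G)) (N : Type) [AddCommGroup N]
    [Module (ZMod p) N] (ρ : Representation (ZMod p) G N) :
    ∃ (q : (G ⧸ Nm (P : Subgroup G) → N) →ₗ[ZMod p] N)
      (s : N →ₗ[ZMod p] (G ⧸ Nm (P : Subgroup G) → N))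
      (u : (G ⧸ Nm (P : Subgroup G) → N) →ₗ[ZMod p] (G ⧸ Nm (P : Subgroup G) → N)),
      (∀ g w, q (coind (Nm (P : Subgroup G)) ρ g w) = ρ g (q w)) ∧
      (∀ g m, s (ρ g m) = coind (Nm (P : Subgroup G)) ρ g (s m)) ∧
      (∀ m, q (s m) = m) ∧
      ∀ w, ∑ g : G, coind (Nm (P : Subgroup G)) ρ g
        (u (coind (Nm (P : Subgroup G)) ρ g⁻¹ w)) = w - s (q w) := by
  classical
  set B := Nm (P : Subgroup G) with hB
  let _ : Fintype (G ⧸ B) := Fintype.ofFinite _
  let _ : Fintype ↥(P : Subgroup G) := Fintype.ofFinite _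
  let _ : Fintype ↥B := Fintype.ofFinite _
  set ω₀ : G ⧸ B := ((1 : G) : G ⧸ B) with hω₀
  -- the representatives
  let R : G ⧸ B → Prop := fun β => β ≠ ω₀ ∧ orep (P : Subgroup G) β = β
  have hfixP : ∀ x : ↥(P : Subgroup G), (x : G) • ω₀ = ω₀ :=
    fun x => smul_one_eq (P : Subgroup G) x
  have hfree := free_of_isTI P hTI
  have hR : ∀ β : G ⧸ B, β ≠ ω₀ → ∃! x : ↥(P : Subgroup G), R ((x : G) • β) :=
    fun β hβ => existsUnique_orep (P : Subgroup G) ω₀ hfixP hfree β hβ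
  have hR0 : ∀ β, R β → β ≠ ω₀ := fun β h => h.1
  -- the numbers
  set nP := Fintype.card ↥(P : Subgroup G) with hnP
  have hnPpos : 0 < nP := Fintype.card_pos
  obtain ⟨c, hc⟩ : ∃ c, Nat.card ↥B = nP * c := by
    have h := Subgroup.card_dvd_of_le (Subgroup.le_normalizer : (P : Subgroup G) ≤ B)
    rw [Nat.card_eq_fintype_card] at h
    exact h
  set a := (P : Subgroup G).index with ha
  have hGa : Nat.card G = nP * a := by
    rw [← Subgroup.card_mul_index (P : Subgroup G), Nat.card_eq_fintype_card]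
  have hGΩ : Nat.card G = Nat.card (G ⧸ B) * Nat.card ↥B :=
    Subgroup.card_eq_card_quotient_mul_card_subgroup B
  have hac : a = Fintype.card (G ⧸ B) * c := by
    have h1 : nP * a = nP * (Fintype.card (G ⧸ B) * c) := by
      rw [← hGa, hGΩ, hc, Nat.card_eq_fintype_card]
      ring
    exact Nat.eq_of_mul_eq_mul_left hnPpos h1
  have hca : c ≤ a := by
    rw [hac]
    exact Nat.le_mul_of_pos_left c Fintype.card_pos
  have ha0 : (a : ZMod p) ≠ 0 := by
    rw [Ne, ZMod.natCast_eq_zero_iff]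
    exact P.not_dvd_index
  -- the fibre of `g ↦ g • ω₀` over `ω` has `|B|` elements
  have hT : ∀ ω : G ⧸ B,
      (Finset.univ.filter fun g : G => g⁻¹ • ω = ω₀).card = Nat.card ↥B := by
    intro ω
    induction ω using QuotientGroup.induction_on with
    | H g₀ =>
      have h1 : (Finset.univ.filter fun g : G => g⁻¹ • ((g₀ : G) : G ⧸ B) = ω₀)
          = Finset.univ.image (fun b : ↥B => g₀ * (b : G)) := by
        ext g
        simp only [Finset.mem_filter, Finset.mem_univ, true_and, Finset.mem_image]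
        rw [MulAction.Quotient.smul_coe, smul_eq_mul]
        constructor
        · intro h
          have h' : (g⁻¹ * g₀)⁻¹ * 1 ∈ B := QuotientGroup.eq.mp h
          exact ⟨⟨g₀⁻¹ * g, by simpa using h'⟩, by simp⟩
        · rintro ⟨b, rfl⟩
          apply QuotientGroup.eq.mpr
          simp
      rw [h1, Finset.card_image_of_injective _ (fun b b' h => Subtype.ext (mul_left_cancel h)),
        Finset.card_univ, Nat.card_eq_fintype_card]
  -- the two counts
  have hcountA : ∀ ω : G ⧸ B, (Finset.univ.filter fun g : G => R (g⁻¹ • ω)).card = a - c := by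
    intro ω
    have h1 := card_mul_card_filter (P : Subgroup G) ω₀ R hR ω
      (Finset.univ.filter fun g : G => g⁻¹ • ω ≠ ω₀)
      (by
        intro g hg x
        rw [Finset.mem_filter] at hg ⊢
        refine ⟨Finset.mem_univ _, fun h => hg.2 ?_⟩
        rw [mul_inv_rev, mul_smul] at h
        have h2 : g⁻¹ • ω = (x : G) • ω₀ := by rw [← h, smul_inv_smul]
        rw [h2, hfixP x])
      (by
        intro g hg
        exact (Finset.mem_filter.mp hg).2)
    have h2 : ((Finset.univ.filter fun g : G => g⁻¹ • ω ≠ ω₀).filter fun g => R (g⁻¹ • ω))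
        = Finset.univ.filter fun g : G => R (g⁻¹ • ω) := by
      rw [Finset.filter_filter]
      refine Finset.filter_congr fun g _ => ?_
      exact ⟨fun h => h.2, fun h => ⟨hR0 _ h, h⟩⟩
    have h3 : (Finset.univ.filter fun g : G => g⁻¹ • ω ≠ ω₀).card + Nat.card ↥B
        = Nat.card G := by
      have h := Finset.card_filter_add_card_filter_not (s := (Finset.univ : Finset G))
        (fun g : G => g⁻¹ • ω = ω₀)
      rw [hT ω, Finset.card_univ] at h
      rw [Nat.card_eq_fintype_card (α := G), ← h, add_comm]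
    rw [h2] at h1
    have h5 : nP * ((Finset.univ.filter fun g : G => R (g⁻¹ • ω)).card + c) = nP * a := by
      rw [mul_add, h1, ← hc, ← hGa]
      exact h3
    have h6 := Nat.eq_of_mul_eq_mul_left hnPpos h5
    omega
  have hcountC : ∀ ω ω'' : G ⧸ B, ω'' ≠ ω →
      (Finset.univ.filter fun g : G => g⁻¹ • ω = ω₀ ∧ R (g⁻¹ • ω'')).card = c := by
    intro ω ω'' hne
    have h1 := card_mul_card_filter (P : Subgroup G) ω₀ R hR ω''
      (Finset.univ.filter fun g : G => g⁻¹ • ω = ω₀)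
      (by
        intro g hg x
        rw [Finset.mem_filter] at hg ⊢
        refine ⟨Finset.mem_univ _, ?_⟩
        rw [mul_inv_rev, mul_smul, hg.2]
        simpa using hfixP x⁻¹)
      (by
        intro g hg h
        apply hne
        have h2 := (Finset.mem_filter.mp hg).2
        exact MulAction.injective g⁻¹ (h.trans h2.symm))
    rw [Finset.filter_filter, hT ω, hc] at h1
    exact Nat.eq_of_mul_eq_mul_left hnPpos h1
  -- the weight and its three sums
  let w : G ⧸ B → ZMod p := fun β => if R β then 1 else 0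
  have hA : ∀ ω : G ⧸ B, ∑ g : G, w (g⁻¹ • ω) = ((a - c : ℕ) : ZMod p) := by
    intro ω
    rw [← hcountA ω]
    exact Finset.sum_boole _ _
  have hC : ∀ ω ω'' : G ⧸ B, ω'' ≠ ω →
      ∑ g : G, (if g⁻¹ • ω = ω₀ then w (g⁻¹ • ω'') else 0) = (c : ZMod p) := by
    intro ω ω'' h
    rw [← hcountC ω ω'' h, ← Finset.sum_boole]
    refine Finset.sum_congr rfl fun g _ => ?_
    show (if g⁻¹ • ω = ω₀ then (if R (g⁻¹ • ω'') then (1 : ZMod p) else 0) else 0)
      = if (g⁻¹ • ω = ω₀ ∧ R (g⁻¹ • ω'')) then 1 else 0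
    by_cases h1 : g⁻¹ • ω = ω₀ <;> by_cases h2 : R (g⁻¹ • ω'') <;> simp [h1, h2]
  have hC0 : ∀ ω : G ⧸ B, ∑ g : G, (if g⁻¹ • ω = ω₀ then w (g⁻¹ • ω) else 0) = 0 := by
    intro ω
    refine Finset.sum_eq_zero fun g _ => ?_
    by_cases h : g⁻¹ • ω = ω₀
    · rw [if_pos h]
      show (if R (g⁻¹ • ω) then (1 : ZMod p) else 0) = 0
      rw [if_neg]
      intro hR'
      exact hR0 _ hR' h
    · rw [if_neg h]
  have hΩ0 : (Fintype.card (G ⧸ B) : ZMod p) ≠ 0 := by
    intro h
    apply ha0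
    rw [hac, Nat.cast_mul, h, zero_mul]
  refine ⟨(Fintype.card (G ⧸ B) : ZMod p)⁻¹ •
      ∑ ω, (LinearMap.proj ω : (G ⧸ B → N) →ₗ[ZMod p] N),
    LinearMap.pi fun _ => LinearMap.id, (a : ZMod p)⁻¹ • thetaOp B w N, ?_, ?_, ?_, ?_⟩
  · intro g φ
    simp only [LinearMap.smul_apply, LinearMap.sum_apply, LinearMap.proj_apply, coind_apply,
      map_smul, map_sum]
    congr 1
    exact Fintype.sum_equiv (MulAction.toPerm g⁻¹) _ _ fun ω => rfl
  · intro g m
    funext ω
    rfl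
  · intro m
    simp only [LinearMap.smul_apply, LinearMap.sum_apply, LinearMap.proj_apply,
      LinearMap.pi_apply, LinearMap.id_apply, Finset.sum_const, Finset.card_univ]
    rw [← Nat.cast_smul_eq_nsmul (ZMod p), smul_smul, inv_mul_cancel₀ hΩ0, one_smul]
  · intro φ
    funext ω
    have h1 := sum_conj_thetaOp B ρ w _ _ hA hC hC0 φ ω
    have h2 : (∑ g : G, coind B ρ g (((a : ZMod p)⁻¹ • thetaOp B w N) (coind B ρ g⁻¹ φ)))
        = (a : ZMod p)⁻¹ • ∑ g : G, coind B ρ g (thetaOp B w N (coind B ρ g⁻¹ φ)) := by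
      rw [Finset.smul_sum]
      refine Finset.sum_congr rfl fun g _ => ?_
      rw [LinearMap.smul_apply, map_smul]
    have h3 : ((a - c : ℕ) : ZMod p) + (c : ZMod p) = (a : ZMod p) := by
      rw [← Nat.cast_add, Nat.sub_add_cancel hca]
    have h4 : (a : ZMod p)⁻¹ * (c : ZMod p) = (Fintype.card (G ⧸ B) : ZMod p)⁻¹ := by
      have hc0 : (c : ZMod p) ≠ 0 := by
        intro h
        apply ha0
        rw [hac, Nat.cast_mul, h, mul_zero]
      rw [hac, Nat.cast_mul]
      field_simp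
    rw [h2, Pi.smul_apply, h1, h3, smul_sub, smul_smul, inv_mul_cancel₀ ha0, one_smul, smul_smul,
      h4]
    simp [LinearMap.sum_apply]

end Fermat.Agent.S56.EC.SteinbergInd
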